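import Fermat.Agent.LT.A2.H798.CpxSpec

/-!
# Row LT, tower A2, leaf A2.03.1.1.10.01 `CX798.UnipC` (helper125)

OFF-MAIN.  `unipC125 : CX798.UnipC`, VERBATIM on `LT/A2/H798/CpxSpec.lean` (helper798,
sha256 8ca2dc507058b836).  `n(x) g` has the bottom row of `g`, so `rowN` is unchanged and
`rowB ↦ rowB + x · rowN`; `Q(ξ) = z₁ z₂`.  The admissibility hypothesis is not used (for
`rowN g = 0` both sides vanish).
-/

set_option autoImplicit false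

open scoped ComplexConjugate

noncomputable section

namespace Fermat.Agent.LT.A2.H125

open Fermat.Agent.LT.A2 Fermat.Agent.LT.A2.WX467 Fermat.Agent.LT.A2.CX798

theorem rowN_unip125 (x : ℂ) (g : Matrix (Fin 2) (Fin 2) ℂ) :
    rowN (!![1, x; 0, 1] * g) = rowN g := by
  simp [rowN, Matrix.mul_apply, Fin.sum_univ_two]

theorem rowB_unip125 (x : ℂ) (g : Matrix (Fin 2) (Fin 2) ℂ) :
    rowB (!![1, x; 0, 1] * g) = rowB g + x * ((rowN g : ℝ) : ℂ) := by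
  have h1 : ∀ z : ℂ, z * conj z = ((‖z‖ : ℝ) : ℂ) ^ 2 := by
    intro z
    rw [Complex.mul_conj, Complex.normSq_eq_norm_sq]
    push_cast
    rfl
  have e00 : (!![1, x; 0, 1] * g) 0 0 = g 0 0 + x * g 1 0 := by
    simp [Matrix.mul_apply, Fin.sum_univ_two]
  have e01 : (!![1, x; 0, 1] * g) 0 1 = g 0 1 + x * g 1 1 := by
    simp [Matrix.mul_apply, Fin.sum_univ_two]
  have e10 : (!![1, x; 0, 1] * g) 1 0 = g 1 0 := by
    simp [Matrix.mul_apply, Fin.sum_univ_two]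
  have e11 : (!![1, x; 0, 1] * g) 1 1 = g 1 1 := by
    simp [Matrix.mul_apply, Fin.sum_univ_two]
  unfold rowB rowN
  rw [e00, e01, e10, e11]
  push_cast
  rw [← h1 (g 1 0), ← h1 (g 1 1)]
  ring

theorem qfL_split125 (ω₁ ω₂ : ℂ) (ξ : ℂ × ℂ) :
    qfL (ω₁ + ω₂) (ω₁ * ω₂) ξ = (ξ.1 + ω₁ * ξ.2) * (ξ.1 + ω₂ * ξ.2) := by
  unfold qfL
  ring

/-- **CX.01 UNIP.** -/
theorem unipC125 : UnipC := by
  intro c ω₁ ω₂ x g m ξ _
  unfold FC psiC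
  rw [rowN_unip125, rowB_unip125, qfL_split125]
  by_cases hN : rowN g = 0
  · simp [hN]
  · have key : (c * (rowB g + x * ((rowN g : ℝ) : ℂ))
          * ((ξ.1 + ω₁ * ξ.2) * (ξ.1 + ω₂ * ξ.2))).re / rowN g
        = (c * (x * ((ξ.1 + ω₁ * ξ.2) * (ξ.1 + ω₂ * ξ.2)))).re
          + (c * rowB g * ((ξ.1 + ω₁ * ξ.2) * (ξ.1 + ω₂ * ξ.2))).re / rowN g := by
      have h2 : c * (rowB g + x * ((rowN g : ℝ) : ℂ))
            * ((ξ.1 + ω₁ * ξ.2) * (ξ.1 + ω₂ * ξ.2))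
          = c * rowB g * ((ξ.1 + ω₁ * ξ.2) * (ξ.1 + ω₂ * ξ.2))
            + ((rowN g : ℝ) : ℂ) * (c * (x * ((ξ.1 + ω₁ * ξ.2) * (ξ.1 + ω₂ * ξ.2)))) := by
        ring
      rw [h2, Complex.add_re, Complex.re_ofReal_mul]
      field_simp
      ring
    rw [key]
    generalize ((‖lam ω₁ m * lam ω₂ m‖ / rowN g : ℝ) : ℂ) = P
    generalize (-(2 * Real.pi * ‖c‖ * (‖lam ω₂ m * (ξ.1 + ω₁ * ξ.2)‖ ^ 2
      + ‖lam ω₁ m * (ξ.1 + ω₂ * ξ.2)‖ ^ 2) / rowN g) : ℝ) = A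
    generalize (c * (x * ((ξ.1 + ω₁ * ξ.2) * (ξ.1 + ω₂ * ξ.2)))).re = R₁
    generalize (c * rowB g * ((ξ.1 + ω₁ * ξ.2) * (ξ.1 + ω₂ * ξ.2))).re / rowN g = R₂
    have hE : ((A : ℝ) : ℂ) + 4 * Real.pi * Complex.I * ((R₁ + R₂ : ℝ) : ℂ)
        = 4 * Real.pi * Complex.I * ((R₁ : ℝ) : ℂ)
          + (((A : ℝ) : ℂ) + 4 * Real.pi * Complex.I * ((R₂ : ℝ) : ℂ)) := by
      push_cast
      ring
    rw [hE, Complex.exp_add]
    ring

end Fermat.Agent.LT.A2.H125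

end
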